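/-
S59, unit B: a line stable under a subgroup of index two puts the image in the normaliser of a torus.
-/
import Mathlib.LinearAlgebra.Matrix.Charpoly.Coeff
import Mathlib.LinearAlgebra.Matrix.NonsingularInverse
import Mathlib.GroupTheory.Index
import Mathlib.Algebra.Field.ZMod

set_option autoImplicit false

noncomputable section

open Matrix

namespace Fermat.Agent.R59.ThreeTW

variable {k K : Type*} [Field k] [Field K] (ψ : k →+* K) {G : Type*} [Group G]
  (R : G →* Matrix (Fin 2) (Fin 2) k)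

/-- The image in the larger field. -/
def mapRep : G →* Matrix (Fin 2) (Fin 2) K := MonoidHom.comp ψ.mapMatrix.toMonoidHom R

theorem mapRep_apply (g : G) : mapRep ψ R g = (R g).map ψ := rfl

/-- A common eigenline of the whole image is rational when `diag (1, -1)` is in the image. -/
theorem eq_zero_of_eigen_top (h2 : (2 : k) ≠ 0) {c : G} (hc : R c = !![1, 0; 0, -1])
    (hno : ∀ v : Fin 2 → k, (∀ g, ∃ a : k, R g *ᵥ v = a • v) → v = 0)
    (v : Fin 2 → K) (hv : ∀ g, ∃ a : K, mapRep ψ R g *ᵥ v = a • v) : v = 0 := by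
  classical
  obtain ⟨a, ha⟩ := hv c
  have ha0 : v 0 = a * v 0 := by
    have := congrFun ha 0
    simpa [mapRep_apply, hc, Matrix.mulVec, dotProduct, Fin.sum_univ_two] using this
  have ha1 : -v 1 = a * v 1 := by
    have := congrFun ha 1
    simpa [mapRep_apply, hc, Matrix.mulVec, dotProduct, Fin.sum_univ_two] using this
  have h2K : (2 : K) ≠ 0 := by
    rw [← map_ofNat ψ 2]
    exact (map_ne_zero ψ).mpr h2
  by_contra hv0
  -- one coordinate vanishes
  have hor : v 0 = 0 ∨ v 1 = 0 := by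
    by_contra h
    push Not at h
    have e0 : a = 1 := mul_right_cancel₀ h.1 (by rw [one_mul]; exact ha0.symm)
    rw [e0, one_mul] at ha1
    exact h.2 (mul_left_cancel₀ h2K (by rw [mul_zero]; linear_combination -ha1))
  rcases hor with h | h
  · have hv1 : v 1 ≠ 0 := fun h' => hv0 (funext fun i => by fin_cases i <;> simp [h, h'])
    have := hno ![0, 1] fun g => by
      obtain ⟨b, hb⟩ := hv g
      have e := congrFun hb 0
      simp [mapRep_apply, Matrix.mulVec, dotProduct, Fin.sum_univ_two, h, hv1] at e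
      exact ⟨R g 1 1, funext fun i => by
        fin_cases i <;> simp [Matrix.mulVec, dotProduct, Fin.sum_univ_two, e]⟩
    simpa using congrFun this 1
  · have hv1 : v 0 ≠ 0 := fun h' => hv0 (funext fun i => by fin_cases i <;> simp [h, h'])
    have := hno ![1, 0] fun g => by
      obtain ⟨b, hb⟩ := hv g
      have e := congrFun hb 1
      simp [mapRep_apply, Matrix.mulVec, dotProduct, Fin.sum_univ_two, h, hv1] at e
      exact ⟨R g 0 0, funext fun i => by
        fin_cases i <;> simp [Matrix.mulVec, dotProduct, Fin.sum_univ_two, e]⟩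
    simpa using congrFun this 0

/-- The shape of the image: diagonal on `H`, antidiagonal off it, in a suitable basis. -/
structure Torus (H : Subgroup G) where
  T : G →* Matrix (Fin 2) (Fin 2) K
  trace_eq : ∀ g, (T g).trace = ψ (R g).trace
  det_eq : ∀ g, (T g).det = ψ (R g).det
  eq_one : ∀ g, T g = 1 → R g = 1
  of_scalar : ∀ g (a : K), T g = a • 1 → R g 0 1 = 0 ∧ R g 1 0 = 0 ∧ R g 0 0 = R g 1 1
  diag : ∀ g ∈ H, T g 0 1 = 0 ∧ T g 1 0 = 0
  antidiag : ∀ g, g ∉ H → T g 0 0 = 0 ∧ T g 1 1 = 0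

/-- An eigenline of a subgroup of index two gives the shape. -/
theorem exists_torus {H : Subgroup G} (hH : H.index = 2) {v : Fin 2 → K} (hv0 : v ≠ 0)
    (hv : ∀ h ∈ H, ∃ a : K, mapRep ψ R h *ᵥ v = a • v)
    (htop : ∀ v : Fin 2 → K, (∀ g, ∃ a : K, mapRep ψ R g *ᵥ v = a • v) → v = 0) :
    Nonempty (Torus ψ R H) := by
  classical
  set M := mapRep ψ R with hM
  obtain ⟨g₀, hg₀⟩ : ∃ g₀, g₀ ∉ H := by
    by_contra h
    push Not at h
    have : H = ⊤ := eq_top_iff.mpr fun g _ => h g
    rw [this, Subgroup.index_top] at hH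
    omega
  have hmem : ∀ a b : G, (a * b ∈ H ↔ (a ∈ H ↔ b ∈ H)) := fun a b =>
    Subgroup.mul_mem_iff_of_index_two hH
  have hsq : ∀ g : G, g * g ∈ H := fun g => (hmem g g).mpr Iff.rfl
  set w := M g₀ *ᵥ v with hw
  set P : Matrix (Fin 2) (Fin 2) K := !![v 0, w 0; v 1, w 1] with hP
  have hPd : P.det ≠ 0 := by
    intro hd
    refine hv0 (htop v fun g => ?_)
    -- `w` is a multiple of `v`
    obtain ⟨b, hb⟩ : ∃ b : K, w = b • v := by
      rw [hP, Matrix.det_fin_two_of] at hd
      by_cases h0 : v 0 = 0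
      · have h1 : v 1 ≠ 0 := fun h' => hv0 (funext fun i => by fin_cases i <;> simp [h0, h'])
        rw [h0, zero_mul, zero_sub, neg_eq_zero] at hd
        have hw0 := (mul_eq_zero.mp hd).resolve_right h1
        refine ⟨w 1 / v 1, funext fun i => ?_⟩
        fin_cases i <;> simp [h0, hw0, h1]
      · refine ⟨w 0 / v 0, funext fun i => ?_⟩
        fin_cases i
        · simp [h0]
        · simp only [Fin.mk_one, Pi.smul_apply, smul_eq_mul]
          field_simp
          linear_combination hd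
    by_cases hg : g ∈ H
    · exact hv g hg
    · have h1 : g₀⁻¹ * g ∈ H := (hmem _ _).mpr (by simp [hg, hg₀])
      obtain ⟨a, ha⟩ := hv _ h1
      refine ⟨a * b, ?_⟩
      rw [show g = g₀ * (g₀⁻¹ * g) by group, map_mul, ← Matrix.mulVec_mulVec, ha,
        Matrix.mulVec_smul, ← hw, hb, smul_smul]
  have hPu : IsUnit P.det := isUnit_iff_ne_zero.mpr hPd
  have hI1 : P * P⁻¹ = 1 := Matrix.mul_nonsing_inv P hPu
  have hI2 : P⁻¹ * P = 1 := Matrix.nonsing_inv_mul P hPu
  let T : G →* Matrix (Fin 2) (Fin 2) K :=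
    { toFun := fun g => P⁻¹ * M g * P
      map_one' := by rw [map_one, mul_one, hI2]
      map_mul' := fun a b => by
        rw [map_mul]
        calc P⁻¹ * (M a * M b) * P = P⁻¹ * M a * 1 * M b * P := by
              simp only [mul_one, mul_assoc]
          _ = _ := by rw [← hI1]; simp only [mul_assoc] }
  have hTg : ∀ g, M g * P = P * T g := fun g => by
    show M g * P = P * (P⁻¹ * M g * P)
    rw [← mul_assoc, ← mul_assoc, hI1, one_mul]
  have hback : ∀ g, M g = P * T g * P⁻¹ := fun g => by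
    rw [← hTg, mul_assoc, hI1, mul_one]
  -- columns
  have hcol : ∀ g (a b : K) (j : Fin 2), M g *ᵥ (fun i => P i j) = (fun i => P i 0 * a + P i 1 * b) →
      T g 0 j = a ∧ T g 1 j = b := by
    intro g a b j he
    have h1 : ∀ i, (P * T g) i j = P i 0 * a + P i 1 * b := fun i => by
      rw [← hTg]; exact congrFun he i
    have h2 : (fun i => (P⁻¹ * (P * T g)) i j) = P⁻¹ *ᵥ fun i => (P * T g) i j := rfl
    have h3 : (fun i => (P * T g) i j) = P *ᵥ ![a, b] := funext fun i => by
      rw [h1]; simp [Matrix.mulVec, dotProduct, Fin.sum_univ_two]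
    rw [h3, Matrix.mulVec_mulVec, hI2, Matrix.one_mulVec, ← mul_assoc, hI2, one_mul] at h2
    exact ⟨congrFun h2 0, congrFun h2 1⟩
  have hP0 : (fun i => P i 0) = v := funext fun i => by fin_cases i <;> simp [hP]
  have hP1 : (fun i => P i 1) = w := funext fun i => by fin_cases i <;> simp [hP]
  have hTM : ∀ g a b, M g *ᵥ v = a • v + b • w → T g 0 0 = a ∧ T g 1 0 = b := fun g a b he =>
    hcol g a b 0 (by
      rw [hP0, he]
      funext i
      fin_cases i <;> simp [hP, mul_comm])
  have hTM1 : ∀ g a b, M g *ᵥ w = a • v + b • w → T g 0 1 = a ∧ T g 1 1 = b := fun g a b he =>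
    hcol g a b 1 (by
      rw [hP1, he]
      funext i
      fin_cases i <;> simp [hP, mul_comm])
  refine ⟨⟨T, fun g => ?_, fun g => ?_, fun g hg => ?_, fun g a hg => ?_, fun g hg => ?_,
    fun g hg => ?_⟩⟩
  · show (P⁻¹ * M g * P).trace = _
    rw [Matrix.trace_mul_comm, ← mul_assoc, hI1, one_mul, hM, mapRep_apply]
    simp [Matrix.trace_fin_two]
  · show (P⁻¹ * M g * P).det = _
    rw [Matrix.det_mul, Matrix.det_mul,
      mul_comm (P⁻¹).det, mul_assoc, ← Matrix.det_mul, hI2, Matrix.det_one, mul_one, hM,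
      mapRep_apply, RingHom.map_det]
    rfl
  · have h : M g = 1 := by rw [hback, hg, mul_one, hI1]
    refine Matrix.ext fun i j => ψ.injective ?_
    have := congrFun (congrFun h i) j
    rw [hM, mapRep_apply, Matrix.map_apply] at this
    rw [this]
    fin_cases i <;> fin_cases j <;> simp
  · have h : M g = a • 1 := by rw [hback, hg, Matrix.mul_smul, mul_one, Matrix.smul_mul, hI1]
    have e := fun i j => congrFun (congrFun h i) j
    simp only [hM, mapRep_apply, Matrix.map_apply] at e
    exact ⟨ψ.injective (by simpa using e 0 1), ψ.injective (by simpa using e 1 0),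
      ψ.injective (by simpa using (e 0 0).trans (by simpa using (e 1 1).symm))⟩
  · obtain ⟨a, ha⟩ := hv g hg
    refine ⟨?_, (hTM g a 0 (by rw [ha, zero_smul, add_zero])).2⟩
    have h1 : g₀⁻¹ * g * g₀ ∈ H :=
      (hmem _ _).mpr (by
        constructor
        · intro h
          exact absurd ((hmem _ _).mp h |>.mpr hg) (by simp [hg₀])
        · exact fun h => absurd h hg₀)
    obtain ⟨b, hb⟩ := hv _ h1
    refine (hTM1 g 0 b ?_).1
    rw [hw, Matrix.mulVec_mulVec, ← map_mul, show g * g₀ = g₀ * (g₀⁻¹ * g * g₀) by group, map_mul,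
      ← Matrix.mulVec_mulVec, hb, Matrix.mulVec_smul, zero_smul, zero_add]
  · have h1 : g₀⁻¹ * g ∈ H := (hmem _ _).mpr (by simp [hg, hg₀])
    obtain ⟨a, ha⟩ := hv _ h1
    have h2 : g * g₀ ∈ H := (hmem _ _).mpr (by simp [hg, hg₀])
    obtain ⟨b, hb⟩ := hv _ h2
    refine ⟨(hTM g 0 a ?_).1, (hTM1 g b 0 ?_).2⟩
    · rw [show g = g₀ * (g₀⁻¹ * g) by group, map_mul, ← Matrix.mulVec_mulVec, ha,
        Matrix.mulVec_smul, ← hw, zero_smul, zero_add]
    · rw [hw, Matrix.mulVec_mulVec, ← map_mul, hb, zero_smul, add_zero]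

end Fermat.Agent.R59.ThreeTW
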