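/-
S59, unit B: a finite subgroup of `GL₂(𝔽_p)`, `p ≤ 5`, with the local constraints of a semistable
representation is irreducible on its subgroups of index two.
-/
import Fermat.Agent.R59.ThreeTW.Shape
import Fermat.Agent.FlatBound.Local.Orbit
import Mathlib.GroupTheory.Nilpotent
import Mathlib.GroupTheory.Sylow

set_option autoImplicit false
set_option linter.unusedSectionVars false

noncomputable section

open Matrix
open Fermat.Agent.Deform (Mat2)

namespace Fermat.Agent.R59.ThreeTW

variable {p : ℕ} [Fact p.Prime] {K : Type*} [Field K] {ψ : ZMod p →+* K} {Γ : Type*} [Group Γ]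
  {R : Γ →* Mat2 (ZMod p)} {H : Subgroup Γ}

theorem Torus.commute_of_mem (T : Torus ψ R H) (hinj : Function.Injective R) {a b : Γ} (ha : a ∈ H)
    (hb : b ∈ H) : a * b = b * a := by
  have h : T.T (a * b * (b * a)⁻¹) = 1 := by
    have e : T.T (a * b) = T.T (b * a) := by
      rw [map_mul, map_mul]
      obtain ⟨x1, x2⟩ := T.diag a ha
      obtain ⟨y1, y2⟩ := T.diag b hb
      ext i j
      fin_cases i <;> fin_cases j <;> simp [Matrix.mul_apply, Fin.sum_univ_two, x1, x2, y1, y2, mul_comm]
    rw [map_mul, e, ← map_mul, mul_inv_cancel, map_one]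
  exact mul_inv_eq_one.mp (hinj ((T.eq_one _ h).trans (map_one R).symm))

/-- An element of `H` commuting with one outside is scalar. -/
theorem Torus.scalar_of_commute (T : Torus ψ R H) {a g : Γ} (ha : a ∈ H) (hg : g ∉ H)
    (hc : a * g = g * a) : ∃ s : ZMod p, R a = s • 1 := by
  obtain ⟨a01, a10⟩ := T.diag a ha
  obtain ⟨g00, g11⟩ := T.antidiag g hg
  have hdet : (T.T g).det ≠ 0 := by
    intro h
    have := congrArg Matrix.det (show T.T (g * g⁻¹) = 1 by rw [mul_inv_cancel, map_one])
    rw [map_mul, Matrix.det_mul, h, zero_mul, Matrix.det_one] at this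
    exact zero_ne_one this
  have hg01 : T.T g 0 1 ≠ 0 := fun h => hdet (by rw [Matrix.det_fin_two, g00, h]; ring)
  have e := congrFun (congrFun (show T.T a * T.T g = T.T g * T.T a by
    rw [← map_mul, hc, map_mul]) 0) 1
  simp [Matrix.mul_apply, Fin.sum_univ_two, a01, g00] at e
  have h01 : T.T a 0 0 = T.T a 1 1 := mul_right_cancel₀ hg01 (e.trans (mul_comm _ _))
  obtain ⟨h1, h2, h3⟩ := T.of_scalar a (T.T a 0 0) (by
    ext i j
    fin_cases i <;> fin_cases j <;> simp [a01, a10, h01])
  exact ⟨R a 0 0, by ext i j; fin_cases i <;> fin_cases j <;> simp [h1, h2, h3]⟩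

/-- Unipotent elements are trivial. -/
theorem Torus.eq_one_of_unipotent (T : Torus ψ R H) (hp2 : p ≠ 2) {u : Γ}
    (hu : (R u - 1) * (R u - 1) = 0) : R u = 1 := by
  -- the square of `T u - 1` vanishes
  have htr : (R u).trace = 2 ∧ (R u).det = 1 := by
    have e := fun i j => congrFun (congrFun hu i) j
    have e00 := e 0 0
    have e01 := e 0 1
    have e10 := e 1 0
    have e11 := e 1 1
    simp [Matrix.mul_apply, Fin.sum_univ_two, Matrix.sub_apply] at e00 e01 e10 e11
    have hnil : ((R u - 1).trace) ^ 2 = 0 ∧ (R u - 1).det ^ 2 = 0 := by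
      constructor
      · rw [Matrix.trace_fin_two]
        simp [Matrix.sub_apply]
        by_cases h : (R u 0 0 - 1) + (R u 1 1 - 1) = 0
        · exact h
        · have h01 : R u 0 1 = 0 := (mul_eq_zero.mp (show R u 0 1 * ((R u 0 0 - 1) + (R u 1 1 - 1)) = 0 by
            linear_combination e01)).resolve_right h
          have a0 : (R u 0 0 - 1) = 0 := mul_self_eq_zero.mp (by linear_combination e00 - R u 1 0 * h01)
          have a1 : (R u 1 1 - 1) = 0 := mul_self_eq_zero.mp (by linear_combination e11 - R u 1 0 * h01)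
          rw [a0, a1, add_zero]
      · rw [← Matrix.det_pow, pow_two, hu]; simp
    have t := eq_zero_of_pow_eq_zero hnil.1
    have d := eq_zero_of_pow_eq_zero hnil.2
    rw [Matrix.trace_fin_two, Matrix.sub_apply, Matrix.sub_apply] at t
    rw [Matrix.det_fin_two] at d
    simp [Matrix.sub_apply] at t d
    constructor
    · rw [Matrix.trace_fin_two]; linear_combination t
    · rw [Matrix.det_fin_two]; linear_combination d + t
  by_cases h : u ∈ H
  · refine T.eq_one u ?_
    obtain ⟨h01, h10⟩ := T.diag u h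
    have ht := T.trace_eq u
    have hd := T.det_eq u
    rw [htr.1, map_ofNat, Matrix.trace_fin_two] at ht
    rw [htr.2, map_one, Matrix.det_fin_two, h01, zero_mul, sub_zero] at hd
    have h00 : T.T u 0 0 = 1 := sub_eq_zero.mp (mul_self_eq_zero.mp (by
      linear_combination (T.T u 0 0) * ht - hd))
    have h11 : T.T u 1 1 = 1 := by linear_combination ht - h00
    ext i j
    fin_cases i <;> fin_cases j <;> simp [h01, h10, h00, h11]
  · exfalso
    obtain ⟨h00, h11⟩ := T.antidiag u h
    have ht := T.trace_eq u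
    rw [htr.1, Matrix.trace_fin_two, h00, h11, add_zero] at ht
    have h0 := ψ.injective (ht.symm.trans (map_zero ψ).symm)
    exact hp2 ((Nat.prime_dvd_prime_iff_eq (Fact.out : p.Prime) Nat.prime_two).mp
      ((ZMod.natCast_eq_zero_iff 2 p).mp (by exact_mod_cast h0)))

theorem zmod3_cube : ∀ x : ZMod 3, x ^ 3 = 1 → x = 1 := by decide

theorem zmod5_cube : ∀ x : ZMod 5, x ^ 3 = 1 → x = 1 := by decide

theorem zmod3_neg : ∀ x : ZMod 3, x = -x → x = 0 := by decide

theorem zmod5_sq : ∀ s : ZMod 5, s * s ≠ 2 ∧ s * s * 2 ≠ -1 := by decide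

theorem zmod5_four : ∀ s : ZMod 5, s * s = -1 → s ^ 6 ≠ 1 := by decide

section Final

variable {p : ℕ} [Fact p.Prime] {K : Type*} [Field K] {ψ : ZMod p →+* K} {Γ : Type} [Group Γ]
  {R : Γ →* Mat2 (ZMod p)} {H : Subgroup Γ}

/-- The exponent of the image. -/
theorem Torus.pow_eq_one (T : Torus ψ R H) (hH : H.index = 2) (hinj : Function.Injective R)
    (g : Γ) : g ^ (2 * (p * p - 1)) = 1 := by
  have hp : p.Prime := Fact.out
  haveI : CharP K p := charP_of_injective_ringHom ψ.injective p
  have hmem : g * g ∈ H := Subgroup.mul_mem_iff_of_index_two hH |>.mpr Iff.rfl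
  obtain ⟨h01, h10⟩ := T.diag _ hmem
  set t := (R (g * g)).trace
  set d := (R (g * g)).det
  have hroot : ∀ a : K, a * a - ψ t * a + ψ d = 0 → a ≠ 0 → a ^ (p * p - 1) = 1 := by
    intro a ha ha0
    have hfix : ∀ x : ZMod p, ψ x ^ p = ψ x := fun x => by rw [← map_pow, ZMod.pow_card]
    have e : a ^ p * a ^ p - ψ t * a ^ p + ψ d = 0 := by
      have := congrArg (fun x => x ^ p) ha
      simp only [zero_pow hp.ne_zero] at this
      rw [add_pow_char, sub_pow_char, mul_pow, mul_pow, hfix, hfix] at this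
      exact this
    have h2 : (a ^ p - a) * (a ^ p + a - ψ t) = 0 := by linear_combination e - ha
    have hpp : a ^ (p * p) = a := by
      rw [pow_mul]
      rcases mul_eq_zero.mp h2 with h | h
      · rw [sub_eq_zero.mp h, sub_eq_zero.mp h]
      · have e1 : a ^ p = ψ t - a := by linear_combination h
        rw [e1, sub_pow_char, hfix, e1, sub_sub_cancel]
    have h1 : a * a ^ (p * p - 1) = a * 1 := by
      rw [← pow_succ', Nat.sub_add_cancel (Nat.mul_pos hp.pos hp.pos), mul_one, hpp]
    exact mul_left_cancel₀ ha0 h1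
  set A := T.T (g * g) with hA
  have htr : A 0 0 + A 1 1 = ψ t := by rw [← Matrix.trace_fin_two]; exact T.trace_eq _
  have hdet : A 0 0 * A 1 1 = ψ d := by
    rw [← T.det_eq, Matrix.det_fin_two]
    show A 0 0 * A 1 1 = A 0 0 * A 1 1 - A 0 1 * A 1 0
    rw [h01, zero_mul, sub_zero]
  have hd0 : ψ d ≠ 0 := by
    intro h0
    have := congrArg Matrix.det (show T.T (g * g * (g * g)⁻¹) = 1 by rw [mul_inv_cancel, map_one])
    rw [map_mul, Matrix.det_mul, T.det_eq, show (R (g * g)).det = d from rfl, h0, zero_mul,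
      Matrix.det_one] at this
    exact zero_ne_one this
  have hA0 : A 0 0 ≠ 0 := fun h => hd0 (by rw [← hdet, h, zero_mul])
  have hA1 : A 1 1 ≠ 0 := fun h => hd0 (by rw [← hdet, h, mul_zero])
  have e0 := hroot (A 0 0) (by rw [← htr, ← hdet]; ring) hA0
  have e1 := hroot (A 1 1) (by rw [← htr, ← hdet]; ring) hA1
  have hdiag : A = Matrix.diagonal ![A 0 0, A 1 1] := by
    ext i j
    fin_cases i <;> fin_cases j <;> simp [h01, h10]
  have hone : T.T (g ^ (2 * (p * p - 1))) = 1 := by
    rw [pow_mul, pow_two, map_pow, ← hA, hdiag, Matrix.diagonal_pow, ← Matrix.diagonal_one]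
    congr 1
    funext i
    fin_cases i <;> simp [e0, e1]
  exact hinj ((T.eq_one _ hone).trans (map_one R).symm)

/-- In a finite `2`-group a subgroup killed by every homomorphism to a commutative group is
everything. -/
theorem eq_top_of_forall_comm {Q : Type} [Group Q] [Finite Q] (hQ : IsPGroup 2 Q) (S : Subgroup Q)
    (h : ∀ (A : Type) [CommGroup A] (χ : Q →* A), (∀ s ∈ S, χ s = 1) → χ = 1) : S = ⊤ := by
  by_contra hS
  haveI : Fact (Nat.Prime 2) := ⟨Nat.prime_two⟩
  haveI := hQ.isNilpotent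
  obtain ⟨M, hM, hSM⟩ := (eq_top_or_exists_le_coatom S).resolve_left hS
  haveI : M.Normal := Subgroup.NormalizerCondition.normal_of_coatom M normalizerCondition_of_isNilpotent hM
  haveI : Nontrivial (Q ⧸ M) := QuotientGroup.nontrivial_iff.mpr hM.1
  haveI := (hQ.to_quotient M).center_nontrivial
  -- the centre of the quotient is everything
  have hc : Subgroup.center (Q ⧸ M) = ⊤ := by
    set C := (Subgroup.center (Q ⧸ M)).comap (QuotientGroup.mk' M)
    have hle : M ≤ C := fun x hx => by
      show QuotientGroup.mk' M x ∈ Subgroup.center _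
      rw [show QuotientGroup.mk' M x = 1 from (QuotientGroup.eq_one_iff x).mpr hx]
      exact one_mem _
    rcases hle.eq_or_lt with heq | hlt
    · exfalso
      obtain ⟨z, hz, hz1⟩ := (Subgroup.nontrivial_iff_exists_ne_one _).mp
        (inferInstance : Nontrivial (Subgroup.center (Q ⧸ M)))
      obtain ⟨x, rfl⟩ := QuotientGroup.mk'_surjective M z
      exact hz1 ((QuotientGroup.eq_one_iff x).mpr (heq ▸ hz))
    · refine eq_top_iff.mpr fun z _ => ?_
      obtain ⟨x, rfl⟩ := QuotientGroup.mk'_surjective M z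
      have : x ∈ C := by rw [hM.2 C hlt]; trivial
      exact this
  letI : CommGroup (Q ⧸ M) := Group.commGroupOfCenterEqTop hc
  refine hM.1 (eq_top_iff.mpr fun x _ => (QuotientGroup.eq_one_iff x).mp ?_)
  exact DFunLike.congr_fun (h (Q ⧸ M) (QuotientGroup.mk' M) fun s hs =>
    (QuotientGroup.eq_one_iff s).mpr (hSM hs)) x

/-- **The finite group argument.** -/
theorem Torus.false_of_local [Finite Γ] (T : Torus ψ R H) (hH : H.index = 2) (hp : p = 3 ∨ p = 5)
    (hinj : Function.Injective R) {c : Γ} (hc : R c = !![1, 0; 0, -1])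
    (hno : ∀ v : Fin 2 → ZMod p, (∀ g, ∃ a : ZMod p, R g *ᵥ v = a • v) → v = 0)
    (I : Subgroup Γ) (hI : ∀ a ∈ I, ∀ b ∈ I, a * b = b * a)
    (hgen : ∀ (A : Type) [CommGroup A] (χ : Γ →* A), (∀ i ∈ I, χ i = 1) → χ = 1)
    (hdet5 : p = 5 → ∃ g, (R g).det = 2) : False := by
  classical
  have hmem : ∀ a b : Γ, (a * b ∈ H ↔ (a ∈ H ↔ b ∈ H)) := fun a b =>
    Subgroup.mul_mem_iff_of_index_two hH
  haveI hHn : H.Normal := Subgroup.normal_of_index_eq_two hH
  -- the elements of `H` of order dividing three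
  let N : Subgroup Γ :=
    { carrier := {h | h ∈ H ∧ h ^ 3 = 1}
      one_mem' := ⟨one_mem _, one_pow _⟩
      mul_mem' := fun {a b} ha hb => ⟨mul_mem ha.1 hb.1, by
        rw [(show Commute a b from T.commute_of_mem hinj ha.1 hb.1).mul_pow, ha.2, hb.2, one_mul]⟩
      inv_mem' := fun {a} ha => ⟨inv_mem ha.1, by rw [inv_pow, ha.2, inv_one]⟩ }
  haveI : N.Normal := ⟨fun n hn g => ⟨hHn.conj_mem n hn.1 g, by
    rw [conj_pow, hn.2, mul_one, mul_inv_cancel]⟩⟩
  have h48 : ∀ g : Γ, g ^ 48 = 1 := fun g => by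
    have h := T.pow_eq_one hH hinj g
    rcases hp with rfl | rfl
    · rw [show 48 = 2 * (3 * 3 - 1) * 3 by norm_num, pow_mul, h, one_pow]
    · exact h
  have h2grp : IsPGroup 2 (Γ ⧸ N) := fun x => by
    obtain ⟨g, rfl⟩ := QuotientGroup.mk'_surjective N x
    refine ⟨4, ?_⟩
    rw [← map_pow]
    refine (QuotientGroup.eq_one_iff _).mpr ⟨?_, by rw [← pow_mul]; exact h48 g⟩
    rw [show (2 : ℕ) ^ 4 = 8 + 8 by norm_num, pow_add]
    exact (hmem _ _).mpr Iff.rfl
  have htop := eq_top_of_forall_comm h2grp (I.map (QuotientGroup.mk' N)) fun A _ χ hχ => by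
    have := hgen A (χ.comp (QuotientGroup.mk' N)) fun i hi => hχ _ ⟨i, hi, rfl⟩
    refine MonoidHom.ext fun x => ?_
    obtain ⟨g, rfl⟩ := QuotientGroup.mk'_surjective N x
    exact DFunLike.congr_fun this g
  have hdec : ∀ g : Γ, ∃ i ∈ I, ∃ n ∈ N, g = i * n := fun g => by
    obtain ⟨i, hi, he⟩ := (htop.symm ▸ Subgroup.mem_top (QuotientGroup.mk' N g) :
      QuotientGroup.mk' N g ∈ I.map (QuotientGroup.mk' N))
    exact ⟨i, hi, i⁻¹ * g, QuotientGroup.eq.mp he, by group⟩
  have hdetN : ∀ n ∈ N, (R n).det = 1 := fun n hn => by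
    have h : (R n).det ^ 3 = 1 := by rw [← Matrix.det_pow, ← map_pow, hn.2, map_one, Matrix.det_one]
    rcases hp with rfl | rfl
    exacts [zmod3_cube _ h, zmod5_cube _ h]
  have hp2 : p ≠ 2 := by rcases hp with rfl | rfl <;> omega
  obtain ⟨g₀, hg₀⟩ : ∃ g₀, g₀ ∉ H := by
    by_contra h
    push Not at h
    rw [show H = ⊤ from eq_top_iff.mpr fun g _ => h g, Subgroup.index_top] at hH
    omega
  -- some element of `I` is outside `H`
  obtain ⟨i₀, hi₀, hi₀H⟩ : ∃ i ∈ I, i ∉ H := by
    obtain ⟨i, hi, n, hn, e⟩ := hdec g₀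
    exact ⟨i, hi, fun h => hg₀ (e ▸ mul_mem h hn.1)⟩
  rcases hp with rfl | rfl
  · -- `p = 3`: everything is in `I`
    have hall : ∀ g : Γ, g ∈ I := fun g => by
      obtain ⟨i, hi, n, hn, rfl⟩ := hdec g
      have : n = 1 := hinj ((T.eq_one_of_unipotent hp2 (Fermat.Agent.FlatBound.mat_sub_one_sq_of_pow
        (p := 3) (j := 1) (by rw [← map_pow, pow_one, hn.2, map_one]))).trans (map_one R).symm)
      rw [this, mul_one]
      exact hi
    have hz : ![(1 : ZMod 3), 0] = 0 := hno _ fun g => by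
      have e := congrFun (congrFun ((map_mul R g c).symm.trans
        ((congrArg R (hI g (hall g) c (hall c))).trans (map_mul R c g))) 1) 0
      simp [hc, Matrix.mul_apply, Fin.sum_univ_two] at e
      have h10 : R g 1 0 = 0 := zmod3_neg _ e
      exact ⟨R g 0 0, funext fun i => by
        fin_cases i <;> simp [Matrix.mulVec, dotProduct, Fin.sum_univ_two, h10]⟩
    exact one_ne_zero (congrFun hz 0)
  · -- `p = 5`
    obtain ⟨g, hg⟩ := hdet5 rfl
    obtain ⟨j, hj, n, hn, rfl⟩ := hdec g
    rw [map_mul, Matrix.det_mul, hdetN n hn, mul_one] at hg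
    have hscal : ∀ s : ZMod 5, (s • (1 : Mat2 (ZMod 5))).det = s * s := fun s => by
      rw [Matrix.det_smul, Matrix.det_one, mul_one, Fintype.card_fin, pow_two]
    have hjH : j ∉ H := fun h => by
      obtain ⟨s, hs⟩ := T.scalar_of_commute h hi₀H (hI j hj i₀ hi₀)
      rw [hs, hscal] at hg
      exact (zmod5_sq s).1 hg
    obtain ⟨i, hi, m, hm, rfl⟩ := hdec c
    have hdc : (R i).det = -1 := by
      have h := congrArg Matrix.det hc
      rw [map_mul, Matrix.det_mul, hdetN m hm, mul_one] at h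
      rw [h, Matrix.det_fin_two_of]
      ring
    have hiH : i ∈ H := by
      by_contra h
      have hx : i * j⁻¹ ∈ H := (hmem _ _).mpr (by simp [h, hjH])
      obtain ⟨s, hs⟩ := T.scalar_of_commute hx hi₀H
        (hI _ (mul_mem hi (inv_mem hj)) i₀ hi₀)
      rw [show i = i * j⁻¹ * j by group, map_mul, Matrix.det_mul, hs, hscal, hg] at hdc
      exact (zmod5_sq s).2 hdc
    obtain ⟨s, hs⟩ := T.scalar_of_commute hiH hi₀H (hI i hi i₀ hi₀)
    have hcc : (i * m) * (i * m) = 1 := hinj (by
      rw [map_mul, hc, map_one]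
      ext a b
      fin_cases a <;> fin_cases b <;> simp)
    have hi6 : i ^ 6 = 1 := by
      have h2 : i ^ 2 * m ^ 2 = 1 := by
        rw [← (show Commute i m from T.commute_of_mem hinj hiH hm.1).mul_pow, pow_two, hcc]
      have h6 := congrArg (fun x => x ^ 3) h2
      simp only [one_pow] at h6
      rw [((show Commute i m from T.commute_of_mem hinj hiH hm.1).pow_pow 2 2).mul_pow, ← pow_mul,
        ← pow_mul, pow_mul m 2 3, ← pow_mul m, mul_comm 2 3, pow_mul m 3 2, hm.2, one_pow,
        mul_one] at h6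
      exact h6
    have hd6 : s * s = -1 := by rw [← hscal, ← hs, hdc]
    have hs6 : s ^ 6 = 1 := by
      have := congrFun (congrFun (congrArg R hi6) 0) 0
      rw [map_pow, hs, smul_pow, one_pow, map_one] at this
      simpa using this
    exact zmod5_four s hd6 hs6

end Final

end Fermat.Agent.R59.ThreeTW
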